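import Fermat.Agent.S17.Glob.Defs
import Fermat.Prelude.Def_ModularCurve_ArithmeticGalois

/-!
# S17: the contracts of the blocks and the final assembly

`S17 = fg_of_contracts` applied to the theorems proved by the blocks
GLOB (`StmtGLOB`), GF (`StmtGF`), BR (`StmtBR N`), WMW (`StmtWMW N`).
-/

set_option autoImplicit false

noncomputable section

namespace Fermat.Agent.S17

open ModularCurve

/-- `ℚ̄`. -/
abbrev Qb : Type := AlgebraicClosure ℚ

/-- `J₀(N)(L)`. -/
abbrev JL (N : ℕ) (L : IntermediateField ℚ Qb) : AddSubgroup (JZero N) :=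
  FixedPoints.addSubgroup L.fixingSubgroup (JZero N)

/-- Block GLOB (+ LOC + VAL): the abstract height machine. -/
def StmtGLOB : Prop :=
  ∀ (R : Type) [CommRing R] [Algebra Qb R] (F : Frame Qb R) (𝔤 : GlobalField Qb) (J : Type)
    [AddCommGroup J] (C : ClassData F 𝔤.k0 J), F.Smooth → F.IsRat 𝔤.k0 → HeightStmt C.G

/-- Block GF. -/
def StmtGF : Prop :=
  ∀ (L : IntermediateField ℚ Qb) [FiniteDimensional ℚ L], ∃ 𝔤 : GlobalField Qb, 𝔤.k0 = L.toSubfield

/-- Block BR: over every sufficiently large number field `L` the curve `X₀(N)` gives a smooth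
rational frame and class data with `G = J₀(N)(L)`. -/
def StmtBR (N : ℕ) : Prop :=
  ∀ (L₀ : IntermediateField ℚ Qb) [FiniteDimensional ℚ L₀],
    ∃ L : IntermediateField ℚ Qb, FiniteDimensional ℚ L ∧ L₀ ≤ L ∧
      ∃ (R : Type) (_ : CommRing R) (_ : Algebra Qb R) (F : Frame Qb R),
        F.Smooth ∧ F.IsRat L.toSubfield ∧
          ∃ C : ClassData F L.toSubfield (JZero N), C.G = JL N L

/-- Block WMW: weak Mordell-Weil over all sufficiently large number fields. -/
def StmtWMW (N : ℕ) : Prop :=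
  ∃ L₀ : IntermediateField ℚ Qb, FiniteDimensional ℚ L₀ ∧
    ∀ L : IntermediateField ℚ Qb, FiniteDimensional ℚ L → L₀ ≤ L →
      (nsmulAddMonoidHom (α := JL N L) 2).range.FiniteIndex

/-- descent. -/
theorem fg_of_heightStmt {G : Type*} [AddCommGroup G] (h : HeightStmt G)
    (hw : (nsmulAddMonoidHom (α := G) 2).range.FiniteIndex) : AddGroup.FG G := by
  obtain ⟨h, h0, ⟨c, hc⟩, hN⟩ := h
  haveI : Northcott h := ⟨hN⟩
  exact AddCommGroup.fg_of_descent' hw h0 hc

/-- **Final assembly.** -/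
theorem fg_of_contracts (N : ℕ) (hGLOB : StmtGLOB) (hGF : StmtGF) (hBR : StmtBR N)
    (hWMW : StmtWMW N) :
    AddGroup.FG ↥(FixedPoints.addSubgroup (Qb ≃ₐ[ℚ] Qb) (JZero N)) := by
  obtain ⟨L₀, hL₀, hw⟩ := hWMW
  obtain ⟨L, hL, hle, R, _, _, F, hsm, hrat, C, hC⟩ := hBR L₀
  obtain ⟨⟨ι, abv, ha, hs, k0, hp, hn⟩, h𝔤⟩ := hGF L
  dsimp only at h𝔤
  subst h𝔤
  have hH : HeightStmt C.G := hGLOB R F ⟨ι, abv, ha, hs, L.toSubfield, hp, hn⟩ (JZero N) C hsm hrat
  rw [hC] at hH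
  have h : AddGroup.FG (JL N L) := fg_of_heightStmt hH (hw L hL hle)
  -- `J(ℚ) ⊆ J(L)`
  have h1 : Module.Finite ℤ (JL N L) := Module.Finite.iff_addGroup_fg.2 h
  have h2 : IsNoetherian ℤ (JL N L) := isNoetherian_of_isNoetherianRing_of_finite ℤ _
  let f : FixedPoints.addSubgroup (Qb ≃ₐ[ℚ] Qb) (JZero N) →+ JL N L :=
    { toFun := fun x => ⟨x.1, fun σ => x.2 σ.1⟩
      map_zero' := rfl
      map_add' := fun _ _ => rfl }
  have hf : Function.Injective f := fun x y hxy => Subtype.ext (congrArg (fun z => z.1) hxy)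
  have h3 : Module.Finite ℤ (FixedPoints.addSubgroup (Qb ≃ₐ[ℚ] Qb) (JZero N)) :=
    Module.Finite.of_injective f.toIntLinearMap hf
  exact Module.Finite.iff_addGroup_fg.1 h3

end Fermat.Agent.S17
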