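import Fermat.Agent.S17.Contracts
import Fermat.Agent.S17.WMW.Main
import Fermat.Agent.S17.Unr.Main
import Fermat.Agent.S19.DIV.Main
import Fermat.Agent.S27.CharP

/-!
# S17: the contract `StmtWMW N` (weak Mordell-Weil for `J₀(N)` over all large number fields)

Assembly of `WMW.weak_mordell_weil` (helper60), `Unr.unr`, `Unr.stab` (helper17),
`S19.DIV.divisible` (helper71) and `S27.card_torsion_charZero`.
-/

set_option autoImplicit false

namespace Fermat.Agent.S17

open AlgebraicCurve ModularCurve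

/-- `J₀(N)[2]` is finite. -/
theorem finite_two_torsion (N : ℕ) [NeZero N] : {y : JZero N | 2 • y = 0}.Finite := by
  have : Lib.RR.IsFF S24.Kbar (S24.FN N) := GAL.Desc.isFF_FF_Kbar N
  have hfin : Finite (Pic0.torsion S24.Kbar (S24.FN N) (2 ^ 1)) := by
    apply Nat.finite_of_card_ne_zero
    rw [S27.card_torsion_charZero S24.Kbar (S24.FN N) 2 Nat.prime_two 1]
    exact pow_ne_zero _ two_ne_zero
  have hset : {y : JZero N | 2 • y = 0} =
      (↑(Pic0.torsion S24.Kbar (S24.FN N) (2 ^ 1)) : Set (JZero N)) := by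
    ext y
    rw [Set.mem_ofPred_eq, SetLike.mem_coe, Pic0.mem_torsion, natCast_zsmul, pow_one]
  rw [hset]
  exact Set.toFinite _

/-- `J₀(N)` is `2`-divisible. -/
theorem two_divisible (N : ℕ) [NeZero N] (x : JZero N) : ∃ y : JZero N, 2 • y = x := by
  have : Lib.RR.IsFF S24.Kbar (S24.FN N) := GAL.Desc.isFF_FF_Kbar N
  exact S19.DIV.divisible S24.Kbar (S24.FN N) 2 Nat.prime_two x

/-- **Block WMW.** -/
theorem stmtWMW (N : ℕ) [NeZero N] : StmtWMW N := by
  obtain ⟨L₀, hL₀, -, hfix⟩ := WMW.exists_field_fixing (J := JZero N) (Unr.stab N)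
    {y : JZero N | 2 • y = 0} (finite_two_torsion N) ⊥
  refine ⟨L₀, hL₀, fun L hL hle => ?_⟩
  refine WMW.weak_mordell_weil (J := JZero N) (Unr.stab N) (two_divisible N)
    (finite_two_torsion N) (2 * N).primeFactors ?_ L ?_
  · rintro σ ⟨ℓ, hℓ, hℓS, A, hA, hσ⟩ y hy
    refine Unr.unr N ℓ hℓ (fun hd => hℓS ?_) A hA σ hσ y hy
    exact Nat.mem_primeFactors.2 ⟨hℓ, hd, mul_ne_zero two_ne_zero (NeZero.ne N)⟩
  · intro y hy σ hσ
    exact hfix y hy σ (IntermediateField.fixingSubgroup_antitone hle hσ)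

end Fermat.Agent.S17
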