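import Mathlib

/-!
# Project S17 (Mordell-Weil for `J₀(N)`): the hub definitions (pure algebra)

* `Frame K R` : a `K`-algebra `R` (functions on a curve regular outside one point `∞`) with a
  weighted basis `e 0 = 1, e 1, …`, `wt i` = pole order of `e i` at `∞` (strictly increasing,
  `wt i = i + g` for `i ≥ g`; leading structure constants `≠ 0`).
* points: `R →ₐ[K] K`; `Ω`-valued points `R →ₐ[K] Ω`.
* `F.nrm φ n P = max_{wt i ≤ n} φ (P (e i))`,
  `F.wdg φ n P = max_J φ (det (P a (e (J b))))` (`P : Fin d → R → Ω`), for ANY `φ : Ω → Γ`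
  (an absolute value, or a valuation).
* `F.cnrm φ f` = max of `φ` on the coefficients of `f`.
* `UBound A B` : `A v x ≤ C_v * B v x` for all absolute values `v` of `K`, with `C_v = 1` if `v` is
  nonarchimedean and finitely many given nonzero elements of `K` are `v`-units.
-/

set_option autoImplicit false

noncomputable section

namespace Fermat.Agent.S17

open scoped Classical

/-- Weighted basis of the ring of functions regular outside one point. -/
structure Frame (K R : Type*) [Field K] [CommRing R] [Algebra K R] where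
  g : ℕ
  e : Module.Basis ℕ K R
  wt : ℕ → ℕ
  wt_strictMono : StrictMono wt
  wt_zero : wt 0 = 0
  e_zero : e 0 = 1
  wt_large : ∀ i, g ≤ i → wt i = i + g
  wt_add : ∀ i j, ∃ l, wt l = wt i + wt j
  mul_le : ∀ i j l, wt i + wt j < wt l → e.repr (e i * e j) l = 0
  mul_lead : ∀ i j l, wt l = wt i + wt j → e.repr (e i * e j) l ≠ 0

namespace Frame

variable {K R : Type*} [Field K] [CommRing R] [Algebra K R] (F : Frame K R)

theorem exists_lt_wt (n : ℕ) : ∃ i, n < F.wt i :=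
  ⟨n + 1, lt_of_lt_of_le (Nat.lt_succ_self n) (F.wt_strictMono.le_apply)⟩

/-- `dim n = #{i | wt i ≤ n} = dim L(n ∞)`. -/
def dim (n : ℕ) : ℕ := Nat.find (F.exists_lt_wt n)

theorem lt_dim_iff {n i : ℕ} : i < F.dim n ↔ F.wt i ≤ n := by
  unfold dim
  rw [Nat.lt_find_iff]
  constructor
  · intro h
    exact not_lt.mp (h i le_rfl)
  · intro h m hm
    exact not_lt.mpr (le_trans (F.wt_strictMono.monotone hm) h)

theorem dim_pos (n : ℕ) : 0 < F.dim n := F.lt_dim_iff.mpr (by rw [F.wt_zero]; exact Nat.zero_le n)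

/-- the indices of weight `≤ n`. -/
def idx (n : ℕ) : Finset ℕ := Finset.range (F.dim n)

theorem mem_idx {n i : ℕ} : i ∈ F.idx n ↔ F.wt i ≤ n := by
  rw [idx, Finset.mem_range, lt_dim_iff]

theorem idx_nonempty (n : ℕ) : (F.idx n).Nonempty := ⟨0, Finset.mem_range.mpr (F.dim_pos n)⟩

/-- families of `d` indices of weight `≤ n`. -/
def idxFam (n d : ℕ) : Finset (Fin d → ℕ) := Fintype.piFinset fun _ => F.idx n

theorem mem_idxFam {n d : ℕ} {J : Fin d → ℕ} : J ∈ F.idxFam n d ↔ ∀ b, F.wt (J b) ≤ n := by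
  simp [idxFam, Fintype.mem_piFinset, mem_idx]

theorem idxFam_nonempty (n d : ℕ) : (F.idxFam n d).Nonempty :=
  ⟨fun _ => 0, F.mem_idxFam.mpr fun _ => by rw [F.wt_zero]; exact Nat.zero_le n⟩

/-- the reference level (`≥ 4 g + 2`). -/
def n1 : ℕ := 4 * F.g + 2

/-- the weight (pole order at `∞`) of `f` (`0` for `f = 0`). -/
def deg (f : R) : ℕ := (F.e.repr f).support.sup F.wt

/-- `L(n ∞)`. -/
def le (n : ℕ) : Submodule K R := Submodule.span K (F.e '' {i | F.wt i ≤ n})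

section Norms

variable {Ω Γ : Type*} [LinearOrder Γ]

/-- `max_{wt i ≤ n} φ (P (e i))`. -/
def nrm (φ : Ω → Γ) (n : ℕ) (P : R → Ω) : Γ :=
  (F.idx n).sup' (F.idx_nonempty n) fun i => φ (P (F.e i))

/-- the matrix `(P a (e (J b)))`. -/
def mat {d : ℕ} (P : Fin d → R → Ω) (J : Fin d → ℕ) : Matrix (Fin d) (Fin d) Ω :=
  Matrix.of fun a b => P a (F.e (J b))

/-- `max_J φ (det (P a (e (J b))))`, `J` running through the families of indices of weight `≤ n`. -/
def wdg [CommRing Ω] (φ : Ω → Γ) (n : ℕ) {d : ℕ} (P : Fin d → R → Ω) : Γ :=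
  (F.idxFam n d).sup' (F.idxFam_nonempty n d) fun J => φ (F.mat P J).det

/-- max of `φ` on the coefficients of `f`. -/
def cnrm (φ : K → Γ) (f : R) : Γ :=
  (F.idx (F.deg f)).sup' (F.idx_nonempty _) fun i => φ (F.e.repr f i)

end Norms

end Frame

/-- the pairs `a < b` in `Fin d`. -/
def pairs (d : ℕ) : Finset (Fin d × Fin d) := Finset.univ.filter fun p => p.1 < p.2

/-- Uniform bound: `A v x ≤ C_v * B v x` for all absolute values `v` on `K` and all `x`, where
`C_v = 1` as soon as `v` is nonarchimedean and the finitely many elements of `S` are `v`-units. -/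
def UBound {K : Type*} [Field K] {α : Type*} (A B : AbsoluteValue K ℝ → α → ℝ) : Prop :=
  ∃ S : Finset K, (∀ a ∈ S, a ≠ 0) ∧ ∀ v : AbsoluteValue K ℝ, ∃ C : ℝ, 1 ≤ C ∧
    (IsNonarchimedean v → (∀ a ∈ S, v a = 1) → C = 1) ∧ ∀ x, A v x ≤ C * B v x

/-- the two-point family. -/
def two {α : Type*} (P Q : α) : Fin 2 → α := ![P, Q]

section Vdm

variable {K R : Type*} [Field K] [CommRing R] [Algebra K R] (F : Frame K R)
variable {Ω Γ : Type*} [CommRing Ω] [Algebra K Ω] [LinearOrder Γ] [CommMonoid Γ]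

/-- `|∧_a ξ_n(P_a)| * ∏_{a<b} |P_a|_{n1} |P_b|_{n1}` -/
def vdmA (φ : Ω → Γ) (n : ℕ) {d : ℕ} (P : Fin d → (R →ₐ[K] Ω)) : Γ :=
  F.wdg φ n (fun a => ⇑(P a)) * ∏ p ∈ pairs d, (F.nrm φ F.n1 (P p.1) * F.nrm φ F.n1 (P p.2))

/-- `∏_a |P_a|_n * ∏_{a<b} |ξ_{n1}(P_a) ∧ ξ_{n1}(P_b)|` -/
def vdmB (φ : Ω → Γ) (n : ℕ) {d : ℕ} (P : Fin d → (R →ₐ[K] Ω)) : Γ :=
  (∏ a, F.nrm φ n (P a)) * ∏ p ∈ pairs d, F.wdg φ F.n1 (fun a => ⇑(two (P p.1) (P p.2) a))

/-- the matrix of the coefficients (columns `J' l'`) of `f * e l`, `l < r`. -/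
def bmat (f : R) {r : ℕ} (J' : Fin r → ℕ) : Matrix (Fin r) (Fin r) K :=
  Matrix.of fun l l' => F.e.repr (f * F.e l) (J' l')

/-- Pluecker norm of `f * L`, `L = span (e l, l < r)`, inside `L(N ∞)`. -/
def bwdg (φ : K → Γ) (N r : ℕ) (f : R) : Γ :=
  (F.idxFam N r).sup' (F.idxFam_nonempty N r) fun J' => φ (bmat F f J').det

end Vdm

end Fermat.Agent.S17
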